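import Fermat.Agent.Res.CycloModP

/-!
# PROGRAMME III, X1-RES, leaf 0: the mod `M` cyclotomic character of `G_ℚ` (any `M ≠ 0`)

`cycloM M : GQ →* (ZMod M)ˣ`, with

* `cycloM_spec` : `σ ζ = ζ ^ (cycloM M σ).val` for `ζ ^ M = 1`;
* `cycloM_frobenius` : `cycloM M φ = ℓ` for every Frobenius element at a place over `ℓ ∤ M`;
* `cycloM_eq_one_of_mem_inertia` : trivial on inertia groups at places over `ℓ ∤ M`;
* `exists_finite_level_M` : factors through `ℚ(ζ_M)`.

Twin of `Fermat.Agent.Res.CycloModP` (prime modulus) — the only new point is that distinct `M`-th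
roots of unity stay distinct modulo a place over `ℓ ∤ M` (`(1 - η) ∣ M` for `η ≠ 1`).
-/

set_option autoImplicit false
set_option linter.style.haveILetI false
set_option linter.unusedSectionVars false

open IsLocalRing
open Fermat.Agent.S54.FrobExists

namespace Fermat.Agent.DS.X1Res

local notation "Qb" => AlgebraicClosure ℚ
local notation "GQ" => (AlgebraicClosure ℚ ≃ₐ[ℚ] AlgebraicClosure ℚ)

variable (M : ℕ) [NeZero M]

theorem card_rootsOfUnity_Qb : Nat.card (rootsOfUnity M Qb) = M :=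
  IsAlgClosed.card_rootsOfUnity_eq Qb M

/-- The mod `M` cyclotomic character of `G_ℚ`. -/
noncomputable def cycloM : GQ →* (ZMod M)ˣ where
  toFun σ := modularCyclotomicCharacter Qb (card_rootsOfUnity_Qb M) (σ : Qb ≃+* Qb)
  map_one' := map_one (modularCyclotomicCharacter Qb (card_rootsOfUnity_Qb M))
  map_mul' σ τ := map_mul (modularCyclotomicCharacter Qb (card_rootsOfUnity_Qb M))
    (σ : Qb ≃+* Qb) (τ : Qb ≃+* Qb)

/-- The action of `σ` on `M`-th roots of unity. -/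
theorem cycloM_spec (σ : GQ) {ζ : Qb} (hζ : ζ ^ M = 1) :
    σ ζ = ζ ^ ((cycloM M σ : (ZMod M)ˣ) : ZMod M).val := by
  have hu : IsUnit ζ := IsUnit.of_pow_eq_one hζ (NeZero.ne M)
  obtain ⟨t, rfl⟩ := hu
  have ht : t ∈ rootsOfUnity M Qb := by
    rw [mem_rootsOfUnity]; exact Units.ext (by simpa using hζ)
  exact modularCyclotomicCharacter.spec Qb (card_rootsOfUnity_Qb M) (σ : Qb ≃+* Qb) ht

/-- If `σ` raises all `M`-th roots of unity to the `k`-th power then `cycloM M σ = k`. -/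
theorem natCast_eq_cycloM_of_forall (σ : GQ) (k : ℕ)
    (h : ∀ ζ : Qb, ζ ^ M = 1 → σ ζ = ζ ^ k) :
    (k : ZMod M) = ((cycloM M σ : (ZMod M)ˣ) : ZMod M) := by
  unfold cycloM
  simp only [MonoidHom.coe_mk, OneHom.coe_mk]
  refine modularCyclotomicCharacter.unique Qb (card_rootsOfUnity_Qb M) (σ : Qb ≃+* Qb) ?_
  intro t ht
  have h1 : ((t : Qbˣ) : Qb) ^ M = 1 := by
    have := (mem_rootsOfUnity _ _).mp ht
    rw [← Units.val_pow_eq_pow_val, this, Units.val_one]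
  have h2 := h _ h1
  rw [ZMod.val_natCast]
  have hmod : ((t : Qbˣ) : Qb) ^ (k % M) = (t : Qb) ^ k := by
    conv_rhs => rw [← Nat.div_add_mod k M, pow_add, pow_mul, h1, one_pow, one_mul]
  rw [hmod]
  exact h2

/-- `cycloM M σ = 1` iff `σ` fixes the `M`-th roots of unity. -/
theorem cycloM_eq_one_iff (σ : GQ) :
    cycloM M σ = 1 ↔ ∀ ζ : Qb, ζ ^ M = 1 → σ ζ = ζ := by
  constructor
  · intro h ζ hζ
    rw [cycloM_spec M σ hζ, h, Units.val_one]
    rcases Nat.lt_or_ge 1 M with h1 | h1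
    · haveI : Fact (1 < M) := ⟨h1⟩
      rw [ZMod.val_one, pow_one]
    · have hM1 : M = 1 := le_antisymm h1 (Nat.pos_of_ne_zero (NeZero.ne M))
      subst hM1
      rw [pow_one] at hζ
      rw [hζ, one_pow]
  · intro h
    have := natCast_eq_cycloM_of_forall M σ 1 (fun ζ hζ => by rw [pow_one]; exact h ζ hζ)
    rw [Nat.cast_one] at this
    exact Units.ext this.symm

variable {M}

/-- An `M`-th root of unity `η ≠ 1` is not congruent to `1` modulo a place over `ℓ ∤ M`. -/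
theorem not_valuation_sub_one_lt_one {ℓ : ℕ} (hℓ : ℓ.Prime) (hℓM : ¬ ℓ ∣ M)
    (A : ValuationSubring Qb) (hA : A.LiesOverPrime ℓ) {η : Qb} (hηM : η ^ M = 1) (hη1 : η ≠ 1) :
    ¬ A.valuation (η - 1) < 1 := by
  intro hvη
  have hM0 : 0 < M := Nat.pos_of_ne_zero (NeZero.ne M)
  have hηint : IsIntegral ℤ η :=
    IsIntegral.of_pow hM0 (by rw [hηM]; exact isIntegral_one)
  have hηA : η ∈ A := integral_mem_valuationSubring A hηint
  -- `(1 - η) ∣ M` in `A`
  have hsum : ∑ i ∈ Finset.range M, η ^ i = 0 := by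
    have h := mul_geom_sum η M
    rw [hηM, sub_self] at h
    exact (mul_eq_zero.mp h).resolve_left (sub_ne_zero.mpr hη1)
  obtain ⟨z, hz⟩ : ∃ z : A, (M : A) = (1 - ⟨η, hηA⟩) * z := by
    have h := Polynomial.sub_dvd_eval_sub (1 : A) ⟨η, hηA⟩
      (∑ i ∈ Finset.range M, (Polynomial.X : Polynomial A) ^ i)
    simp only [Polynomial.eval_finsetSum, Polynomial.eval_pow, Polynomial.eval_X, one_pow,
      Finset.sum_const, Finset.card_range, nsmul_eq_mul, mul_one] at h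
    have h0 : ∑ i ∈ Finset.range M, (⟨η, hηA⟩ : A) ^ i = 0 := by
      apply Subtype.ext
      push_cast
      exact hsum
    rw [h0, sub_zero] at h
    exact h
  have hzQ : (M : Qb) = (1 - η) * (z : Qb) := by
    have := congrArg (Subtype.val : A → Qb) hz
    push_cast at this
    exact this
  have hvM : A.valuation (M : Qb) < 1 := by
    rw [hzQ, map_mul]
    have h1 : A.valuation (1 - η) < 1 := by
      rw [← neg_sub, Valuation.map_neg]; exact hvη
    calc A.valuation (1 - η) * A.valuation (z : Qb) ≤ A.valuation (1 - η) * 1 :=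
          mul_le_mul_right ((A.valuation_le_one_iff _).2 z.2) _
      _ = A.valuation (1 - η) := mul_one _
      _ < 1 := h1
  have hvℓ : A.valuation (ℓ : Qb) < 1 := (A.mem_nonunits_iff).mp hA
  have hcop : Nat.Coprime M ℓ := (Nat.Coprime.symm ((Nat.Prime.coprime_iff_not_dvd hℓ).mpr hℓM))
  have hbez : (1 : Qb) = (Nat.gcdA M ℓ : Qb) * (M : Qb) + (Nat.gcdB M ℓ : Qb) * (ℓ : Qb) := by
    have := Nat.gcd_eq_gcd_ab M ℓ
    rw [hcop] at this
    have h2 : ((1 : ℕ) : ℤ) = (M : ℤ) * Nat.gcdA M ℓ + (ℓ : ℤ) * Nat.gcdB M ℓ := this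
    have h3 := congrArg (Int.cast : ℤ → Qb) h2
    push_cast at h3
    rw [h3]; ring
  have hint' : ∀ n : ℤ, A.valuation (n : Qb) ≤ 1 := fun n =>
    (A.valuation_le_one_iff _).2 (intCast_mem_valuationSubring A n)
  have h1 : A.valuation (1 : Qb) < 1 := by
    rw [hbez]
    refine Valuation.map_add_lt _ ?_ ?_
    · rw [map_mul]
      calc _ ≤ 1 * A.valuation (M : Qb) := mul_le_mul_left (hint' _) _
        _ = _ := one_mul _
        _ < 1 := hvM
    · rw [map_mul]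
      calc _ ≤ 1 * A.valuation (ℓ : Qb) := mul_le_mul_left (hint' _) _
        _ = _ := one_mul _
        _ < 1 := hvℓ
  rw [map_one] at h1
  exact lt_irrefl _ h1

/-- `M`-th roots of unity stay distinct modulo a place over `ℓ ∤ M`. -/
theorem eq_of_valuation_sub_lt_one {ℓ : ℕ} (hℓ : ℓ.Prime) (hℓM : ¬ ℓ ∣ M)
    (A : ValuationSubring Qb) (hA : A.LiesOverPrime ℓ) {ζ₁ ζ₂ : Qb} (h₁ : ζ₁ ^ M = 1)
    (h₂ : ζ₂ ^ M = 1) (h : A.valuation (ζ₁ - ζ₂) < 1) : ζ₁ = ζ₂ := by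
  by_contra hne
  have hM0 : 0 < M := Nat.pos_of_ne_zero (NeZero.ne M)
  have h20 : ζ₂ ≠ 0 := by
    rintro rfl
    rw [zero_pow (NeZero.ne M)] at h₂
    exact zero_ne_one h₂
  have hint : ∀ x : Qb, x ^ M = 1 → x ∈ A := fun x hx =>
    integral_mem_valuationSubring A
      (IsIntegral.of_pow hM0 (by rw [hx]; exact isIntegral_one))
  have h2inv : ζ₂⁻¹ ^ M = 1 := by rw [inv_pow, h₂, inv_one]
  refine not_valuation_sub_one_lt_one hℓ hℓM A hA (η := ζ₁ * ζ₂⁻¹) ?_ ?_ ?_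
  · rw [mul_pow, h₁, h2inv, one_mul]
  · intro h1
    apply hne
    have : ζ₁ * ζ₂⁻¹ * ζ₂ = 1 * ζ₂ := by rw [h1]
    rwa [inv_mul_cancel_right₀ h20, one_mul] at this
  · have e : ζ₁ * ζ₂⁻¹ - 1 = (ζ₁ - ζ₂) * ζ₂⁻¹ := by
      rw [sub_mul, mul_inv_cancel₀ h20]
    rw [e, map_mul]
    calc A.valuation (ζ₁ - ζ₂) * A.valuation ζ₂⁻¹ ≤ A.valuation (ζ₁ - ζ₂) * 1 :=
          mul_le_mul_right ((A.valuation_le_one_iff _).2 (hint _ h2inv)) _
      _ = A.valuation (ζ₁ - ζ₂) := mul_one _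
      _ < 1 := h

variable (M)

/-- **The mod `M` cyclotomic character of a Frobenius element at `ℓ ∤ M` is `ℓ`.** -/
theorem cycloM_frobenius {ℓ : ℕ} (hℓ : ℓ.Prime) (hℓM : ¬ ℓ ∣ M)
    (A : ValuationSubring Qb) (hA : A.LiesOverPrime ℓ) {φ : GQ} (hφ : A.IsFrobeniusAt φ ℓ) :
    ((cycloM M φ : (ZMod M)ˣ) : ZMod M) = (ℓ : ZMod M) := by
  have hM0 : 0 < M := Nat.pos_of_ne_zero (NeZero.ne M)
  refine (natCast_eq_cycloM_of_forall M φ ℓ fun ζ hζ => ?_).symm
  have hζA : ζ ∈ A := integral_mem_valuationSubring A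
    (IsIntegral.of_pow hM0 (by rw [hζ]; exact isIntegral_one))
  refine eq_of_valuation_sub_lt_one hℓ hℓM A hA ?_ ?_
    (Fermat.Agent.Res.valuation_frobenius_sub_pow_lt_one hφ hζA)
  · rw [← map_pow, hζ, map_one]
  · rw [← pow_mul, mul_comm, pow_mul, hζ, one_pow]

/-- **The mod `M` cyclotomic character is trivial on inertia groups above primes `ℓ ∤ M`.** -/
theorem cycloM_eq_one_of_mem_inertia {ℓ : ℕ} (hℓ : ℓ.Prime) (hℓM : ¬ ℓ ∣ M)
    (A : ValuationSubring Qb) (hA : A.LiesOverPrime ℓ) {σ : GQ}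
    (hσ : σ ∈ A.inertiaSubgroupIn ℚ) : cycloM M σ = 1 := by
  rw [cycloM_eq_one_iff]
  intro ζ hζ
  have hM0 : 0 < M := Nat.pos_of_ne_zero (NeZero.ne M)
  have hζA : ζ ∈ A := integral_mem_valuationSubring A
    (IsIntegral.of_pow hM0 (by rw [hζ]; exact isIntegral_one))
  have hlt : A.valuation (σ ζ - ζ) < 1 :=
    ((Fermat.Agent.S14.mem_inertiaSubgroupIn_iff A σ).1 hσ).2 ζ hζA
  exact eq_of_valuation_sub_lt_one hℓ hℓM A hA (by rw [← map_pow, hζ, map_one]) hζ hlt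

/-- The character only depends on the action on one primitive `M`-th root of unity. -/
theorem cycloM_eq_of_apply_eq {ζ : Qb} (hζ : IsPrimitiveRoot ζ M) {σ τ : GQ}
    (h : σ ζ = τ ζ) : cycloM M σ = cycloM M τ := by
  have h1 : cycloM M (τ⁻¹ * σ) = 1 := by
    rw [cycloM_eq_one_iff]
    intro ξ hξ
    obtain ⟨i, -, rfl⟩ := hζ.eq_pow_of_pow_eq_one hξ
    rw [map_pow]
    congr 1
    show τ⁻¹ (σ ζ) = ζ
    rw [h]
    exact τ.symm_apply_apply ζ
  rw [map_mul, map_inv, inv_mul_eq_one] at h1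
  exact h1.symm

/-- **Finite level**: the character factors through the finite extension `ℚ(ζ_M)`. -/
theorem exists_finite_level_M :
    ∃ L : IntermediateField ℚ Qb, FiniteDimensional ℚ L ∧
      ∀ σ τ : GQ, (∀ x ∈ L, σ x = τ x) → cycloM M σ = cycloM M τ := by
  have hM0 : 0 < M := Nat.pos_of_ne_zero (NeZero.ne M)
  obtain ⟨ζ, hζ⟩ : ∃ ζ : Qb, IsPrimitiveRoot ζ M :=
    HasEnoughRootsOfUnity.exists_primitiveRoot Qb M
  have hint : IsIntegral ℚ ζ :=
    (IsIntegral.of_pow hM0 (by rw [hζ.pow_eq_one]; exact isIntegral_one) :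
      IsIntegral ℤ ζ).tower_top
  refine ⟨IntermediateField.adjoin ℚ {ζ}, IntermediateField.adjoin.finiteDimensional hint,
    fun σ τ h => cycloM_eq_of_apply_eq M hζ ?_⟩
  exact h ζ (IntermediateField.mem_adjoin_simple_self ℚ ζ)

end Fermat.Agent.DS.X1Res
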