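import Mathlib
import Fermat.Agent.DS.Kum.LatticeSupport

/-!
# PROGRAMME III (S48), block X1-RES, leaf RES-1: the eigen-package for an abstract Hecke algebra

The `Γ₁`-twin of main's `Res/EigenSystem.lean` (node (R5) of Program R).  The Hecke algebra is
`𝕋 := MvPolynomial ι ℤ` for an ARBITRARY index type `ι` (for `Γ₁(M)`: the `T_p`, `p ∤ M`, and the
diamonds `⟨d⟩`), acting on a lattice `Λ` (finitely generated abelian group) through a commuting
family `T : ι → End Λ` and on an abelian group `J` through a commuting family `S : ι → End J`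
(`DS/Kum/LatticeSupport.lean`, helper9).

* `eigenIdealGen c` : the eigen-ideal `ker (X_i ↦ c_i)` of a system `c : ι → k`;
  `eigenResEmb c : 𝕋 ⧸ eigenIdealGen c →+* k`, injective, `mk (X i) ↦ c i`;
* `ker_polyEval_le_eigenIdealGen` : a polynomial killing `Λ` lies in the eigen-ideal of the
  reduction `φ ∘ b` of the eigenvalues `b : ι → ℤ̄` of a nonzero eigenvector in `ℂ ⊗ Λ`;
* `exists_eigenPackage_of_lattice` : **(R5₁)** the eigen-ideal is maximal, has finite residue field,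
  contains `ℓ`, and `J[𝔪] ≠ 0` (the four inputs `hmax`, `hfin`, `hpm`, `hne` of layer B,
  `Res/S29Generic.exists_residualRep_of_eigenIdeal` on main).
-/

set_option autoImplicit false
set_option linter.unusedSectionVars false
set_option linter.style.haveILetI false

noncomputable section

namespace Fermat.Agent.DS.X1Res

open Fermat.Agent.DS.Kum Fermat.Agent.Jac

local notation "Zb" => integralClosure ℤ ℂ

section EigenIdeal

variable {ι : Type*} {k : Type*} [Field k]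

/-- the eigen-ideal of a system of eigenvalues indexed by an arbitrary type -/
def eigenIdealGen (c : ι → k) : Ideal (MvPolynomial ι ℤ) :=
  RingHom.ker (MvPolynomial.aeval c : MvPolynomial ι ℤ →ₐ[ℤ] k)

theorem mem_eigenIdealGen_iff (c : ι → k) (t : MvPolynomial ι ℤ) :
    t ∈ eigenIdealGen c ↔ MvPolynomial.aeval c t = 0 :=
  RingHom.mem_ker

instance eigenIdealGen_isPrime (c : ι → k) : (eigenIdealGen c).IsPrime :=
  RingHom.ker_isPrime _

theorem X_sub_C_mem_eigenIdealGen (c : ι → k) (i : ι) (b : ℤ) (hb : (b : k) = c i) :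
    MvPolynomial.X i - MvPolynomial.C b ∈ eigenIdealGen c := by
  rw [mem_eigenIdealGen_iff, map_sub, MvPolynomial.aeval_X, MvPolynomial.aeval_C, eq_intCast, hb,
    sub_self]

theorem natCast_mem_eigenIdealGen (c : ι → k) {ℓ : ℕ} (hk : (ℓ : k) = 0) :
    ((ℓ : ℕ) : MvPolynomial ι ℤ) ∈ eigenIdealGen c := by
  rw [mem_eigenIdealGen_iff, map_natCast, hk]

/-- the embedding of the residue ring of the eigen-ideal into `k` -/
def eigenResEmb (c : ι → k) : MvPolynomial ι ℤ ⧸ eigenIdealGen c →+* k :=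
  RingHom.kerLift ((MvPolynomial.aeval c : MvPolynomial ι ℤ →ₐ[ℤ] k) : MvPolynomial ι ℤ →+* k)

theorem eigenResEmb_injective (c : ι → k) : Function.Injective (eigenResEmb c) :=
  RingHom.kerLift_injective _

@[simp] theorem eigenResEmb_mk (c : ι → k) (t : MvPolynomial ι ℤ) :
    eigenResEmb c (Ideal.Quotient.mk (eigenIdealGen c) t) = MvPolynomial.aeval c t :=
  RingHom.kerLift_mk _ t

theorem eigenResEmb_mk_X (c : ι → k) (i : ι) :
    eigenResEmb c (Ideal.Quotient.mk (eigenIdealGen c) (MvPolynomial.X i)) = c i := by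
  rw [eigenResEmb_mk, MvPolynomial.aeval_X]

end EigenIdeal

section Package

variable {ι : Type*} {Λ : Type*} [AddCommGroup Λ] {T : ι → Module.End ℤ Λ}

/-- A polynomial killing the lattice lies in the eigen-ideal of the reduction of the eigenvalues
(algebraic integers `b i`) of any nonzero eigenvector in the complex span of the lattice. -/
theorem ker_polyEval_le_eigenIdealGen (hT : ∀ i j, Commute (T i) (T j))
    {V : Type*} [AddCommGroup V] [Module ℂ V] (e : Λ →+ V) (Tc : ι → V →ₗ[ℂ] V)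
    (he : ∀ i x, e (T i x) = Tc i (e x))
    {ψ : V} (hψ0 : ψ ≠ 0) (hψspan : ψ ∈ Submodule.span ℂ (Set.range e)) (b : ι → Zb)
    (hψ : ∀ i, Tc i ψ = (b i : ℂ) • ψ) {k : Type*} [Field k] (φ : Zb →+* k) :
    RingHom.ker (polyEval T hT) ≤ eigenIdealGen fun i => φ (b i) := by
  intro t ht
  rw [RingHom.mem_ker] at ht
  have h1 := aeval_eq_zero_of_polyEval_eq_zero hT e Tc he hψ0 hψspan (fun i => (b i : ℂ)) hψ t ht
  have h2 : ((MvPolynomial.aeval b t : Zb) : ℂ) = MvPolynomial.aeval (fun i => (b i : ℂ)) t := by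
    have := MvPolynomial.comp_aeval (R := ℤ) b ((Zb).val.restrictScalars ℤ)
    exact congrArg (fun F : MvPolynomial ι ℤ →ₐ[ℤ] ℂ => F t) this
  have h3 : MvPolynomial.aeval b t = 0 := by
    apply Subtype.val_injective
    rw [h2, h1]
    rfl
  have h4 : φ (MvPolynomial.aeval b t) = MvPolynomial.aeval (fun i => φ (b i)) t := by
    have := MvPolynomial.comp_aeval (R := ℤ) b (φ.toIntAlgHom)
    exact congrArg (fun F : MvPolynomial ι ℤ →ₐ[ℤ] k => F t) this
  rw [mem_eigenIdealGen_iff, ← h4, h3, map_zero]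

/-- The residue ring of an ideal containing `ℓ ≠ 0` and the kernel of the action on a finitely
generated lattice is finite. -/
theorem finite_quotient_of_ker_polyEval_le [Module.Finite ℤ Λ] (hT : ∀ i j, Commute (T i) (T j))
    (𝔪 : Ideal (MvPolynomial ι ℤ)) {ℓ : ℕ} (hℓ : ℓ ≠ 0)
    (hℓ𝔪 : ((ℓ : ℕ) : MvPolynomial ι ℤ) ∈ 𝔪) (hle : RingHom.ker (polyEval T hT) ≤ 𝔪) :
    Finite (MvPolynomial ι ℤ ⧸ 𝔪) := by
  haveI := finite_quotient_ker_polyEval (T := T) hT
  haveI : Module.Finite ℤ (MvPolynomial ι ℤ ⧸ 𝔪) :=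
    Module.Finite.of_surjective (Ideal.Quotient.factor hle).toAddMonoidHom.toIntLinearMap
      (Ideal.Quotient.factor_surjective hle)
  apply Module.finite_of_fg_torsion
  intro x
  obtain ⟨y, rfl⟩ := Ideal.Quotient.mk_surjective x
  refine ⟨⟨(ℓ : ℤ), mem_nonZeroDivisors_of_ne_zero (by exact_mod_cast hℓ)⟩, ?_⟩
  show ((ℓ : ℤ)) • (Ideal.Quotient.mk 𝔪 y) = 0
  rw [natCast_zsmul, ← map_nsmul, Ideal.Quotient.eq_zero_iff_mem, nsmul_eq_mul]
  exact Ideal.mul_mem_right _ _ hℓ𝔪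

/-- **(R5₁) The eigen-package for an abstract Hecke algebra acting on a lattice.**

`Λ` a finitely generated abelian group with commuting `T i`; `J` an abelian group with commuting
`S i`; `ρ : Λ →+ J` with kernel `ℓ Λ` intertwining `T i` and `S i` (the Kummer map of level `ℓ`);
`e : Λ →+ V` intertwining `T i` with `ℂ`-linear `Tc i`; `ψ ≠ 0` a common eigenvector of the `Tc i`
in the span of `e (Λ)` with eigenvalues the algebraic integers `b i`; `φ : ℤ̄ →+* k`, `ℓ = 0` in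
`k`.  Then the eigen-ideal `𝔪 = ker (X_i ↦ φ (b i))` of `𝕋 = ℤ[X_i]` is maximal with finite residue
field, contains `ℓ`, and `J[𝔪] ≠ 0`. -/
theorem exists_eigenPackage_of_lattice [Module.Finite ℤ Λ] (hT : ∀ i j, Commute (T i) (T j))
    {J : Type*} [AddCommGroup J] {S : ι → Module.End ℤ J} (hS : ∀ i j, Commute (S i) (S j))
    {ℓ : ℕ} (hℓ : ℓ ≠ 0) (ρ : Λ →+ J) (hker : ∀ x : Λ, ρ x = 0 ↔ ∃ y : Λ, x = ℓ • y)
    (hρ : ∀ i x, ρ (T i x) = S i (ρ x))
    {V : Type*} [AddCommGroup V] [Module ℂ V] (e : Λ →+ V) (Tc : ι → V →ₗ[ℂ] V)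
    (he : ∀ i x, e (T i x) = Tc i (e x))
    {ψ : V} (hψ0 : ψ ≠ 0) (hψspan : ψ ∈ Submodule.span ℂ (Set.range e)) (b : ι → Zb)
    (hψ : ∀ i, Tc i ψ = (b i : ℂ) • ψ) {k : Type*} [Field k] (φ : Zb →+* k)
    (hk : (ℓ : k) = 0) :
    (eigenIdealGen fun i => φ (b i)).IsMaximal ∧
      Finite (MvPolynomial ι ℤ ⧸ eigenIdealGen fun i => φ (b i)) ∧
      ((ℓ : ℕ) : MvPolynomial ι ℤ) ∈ eigenIdealGen (fun i => φ (b i)) ∧
      (letI := polyModule S hS;
        Submodule.torsionBySet (MvPolynomial ι ℤ) J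
          ((eigenIdealGen fun i => φ (b i) : Ideal (MvPolynomial ι ℤ)) : Set (MvPolynomial ι ℤ))
          ≠ ⊥) := by
  set 𝔪 := eigenIdealGen fun i => φ (b i) with h𝔪
  have hle : RingHom.ker (polyEval T hT) ≤ 𝔪 :=
    ker_polyEval_le_eigenIdealGen hT e Tc he hψ0 hψspan b hψ φ
  have hℓ𝔪 : ((ℓ : ℕ) : MvPolynomial ι ℤ) ∈ 𝔪 := natCast_mem_eigenIdealGen _ hk
  haveI hfin : Finite (MvPolynomial ι ℤ ⧸ 𝔪) :=
    finite_quotient_of_ker_polyEval_le hT 𝔪 hℓ hℓ𝔪 hle
  have hmax : 𝔪.IsMaximal :=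
    Ideal.Quotient.maximal_of_isField _ (Finite.isField_of_domain _)
  refine ⟨hmax, hfin, hℓ𝔪, ?_⟩
  letI := polyModule T hT
  letI := polyModule S hS
  have hann : Module.annihilator (MvPolynomial ι ℤ) Λ ≤ 𝔪 := by
    intro t ht
    exact hle ((mem_annihilator_polyModule_iff hT t).mp ht)
  exact torsionBySet_ne_bot_of_lattice (R := MvPolynomial ι ℤ) (Λ := Λ) (J := J) 𝔪 hmax ℓ hℓ
    hℓ𝔪 hann ρ (fun t x => map_polyEval hT hS ρ hρ t x) hker

end Package

section Parabolic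

open ModularCurve.Period
open scoped MatrixGroups

variable {Γ : Subgroup SL(2, ℤ)} {ι : Type*}

/-- **(R5₁), parabolic form**: the eigen-package with `Λ = LamOf Γ` (integral parabolic
homomorphisms of a finite-index `Γ ≤ SL(2,ℤ)`) and the eigenvector a nonzero parabolic
homomorphism `ψ : Γ → ℂ` (the period homomorphism of a cusp form of weight two). -/
theorem exists_eigenPackage_of_parabolic [Γ.FiniteIndex] {T : ι → Module.End ℤ ↥(LamOf Γ)}
    (hT : ∀ i j, Commute (T i) (T j))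
    {J : Type*} [AddCommGroup J] {S : ι → Module.End ℤ J} (hS : ∀ i j, Commute (S i) (S j))
    {ℓ : ℕ} (hℓ : ℓ ≠ 0) (ρ : ↥(LamOf Γ) →+ J)
    (hker : ∀ x, ρ x = 0 ↔ ∃ y : ↥(LamOf Γ), x = ℓ • y) (hρ : ∀ i x, ρ (T i x) = S i (ρ x))
    (Tc : ι → (Additive ↥Γ →+ ℂ) →ₗ[ℂ] (Additive ↥Γ →+ ℂ))
    (hcast : ∀ i (l : ↥(LamOf Γ)), castHomOf Γ ((T i l : ↥(LamOf Γ)) : Additive ↥Γ →+ ℤ) =
      Tc i (castHomOf Γ (l : Additive ↥Γ →+ ℤ)))
    {ψ : Additive ↥Γ →+ ℂ} (hψ0 : ψ ≠ 0) (hψpar : IsParabolicHom Γ ψ) (b : ι → Zb)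
    (hψ : ∀ i, Tc i ψ = (b i : ℂ) • ψ) {k : Type*} [Field k] (φ : Zb →+* k)
    (hk : (ℓ : k) = 0) :
    (eigenIdealGen fun i => φ (b i)).IsMaximal ∧
      Finite (MvPolynomial ι ℤ ⧸ eigenIdealGen fun i => φ (b i)) ∧
      ((ℓ : ℕ) : MvPolynomial ι ℤ) ∈ eigenIdealGen (fun i => φ (b i)) ∧
      (letI := polyModule S hS;
        Submodule.torsionBySet (MvPolynomial ι ℤ) J
          ((eigenIdealGen fun i => φ (b i) : Ideal (MvPolynomial ι ℤ)) : Set (MvPolynomial ι ℤ))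
          ≠ ⊥) := by
  haveI := finite_LamOf Γ
  refine exists_eigenPackage_of_lattice hT hS hℓ ρ hker hρ (lamToC Γ) Tc (fun i x => hcast i x)
    hψ0 ?_ b hψ φ hk
  obtain ⟨n, c, l, hsum⟩ := exists_eq_sum_castHomOf hψpar
  rw [hsum]
  refine Submodule.sum_mem _ fun k _ => Submodule.smul_mem _ _ (Submodule.subset_span ⟨l k, rfl⟩)

end Parabolic

end Fermat.Agent.DS.X1Res
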