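import Fermat.Agent.Res.S29Core
import Fermat.Agent.Jac.QuadAlg
import Fermat.Agent.Cheb.Cross.ChebExactMain

/-!
# PROGRAMME III, X1-RES: the abstract core, character form (= helper4's kernel `KResCore`)

Main's `Res.exists_residualRep_of_core` with the determinant character made ABSTRACT and the
relation stated directly with `d σ`:  `κ` a finite field, `T` a `κ`-module with a `κ`-linear action
`R` of `G_ℚ`, `d : G_ℚ →* κˣ` of finite level and unramified outside `B`, `x ≠ 0` in `T` with open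
stabiliser, inertia at `ℓ ∤ B` trivial on `T`, and `Frob² - c_ℓ Frob + d(Frob) = 0` on `T` for every
Frobenius at `ℓ ∤ B`.  Then there is a `ResidualGaloisRep k` (any `ι : κ →+* k`), unramified outside
`B`, with `charpoly (ρ Frob) = X² - ι(c_ℓ) X + ι(d(Frob))`.  Quadratic-algebra lemma and Chebotarev
are plugged in from main.
-/

set_option autoImplicit false
set_option linter.style.haveILetI false
set_option linter.unusedSectionVars false

open Polynomial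

noncomputable section

namespace Fermat.Agent.DS.X1Res

open Fermat.Agent.Res

local notation "Qb" => AlgebraicClosure ℚ
local notation "GQ" => (AlgebraicClosure ℚ ≃ₐ[ℚ] AlgebraicClosure ℚ)

/-- The quadratic-algebra lemma in the shape consumed by the core. -/
theorem quadAlg_char (κ : Type) [Field κ] [Finite κ] : QuadAlgStatement κ := by
  intro W _ _ _ _ r d t h
  refine Fermat.Agent.Jac.QA.exists_rep_two r t d fun g => ?_
  ext w
  show r g (r g w) = t g • r g w - ((d g : κˣ) : κ) • w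
  rw [eq_sub_iff_add_eq, ← sub_eq_zero, ← h g w]
  abel

/-- **X1-RES core, character form** (the literal of `X1OutSkeleton.KResCore`). -/
theorem kResCore_holds : ∀ (B : ℕ) (κ : Type) [Field κ] [Finite κ] (k : Type) [Field k]
    (ι : κ →+* k) (T : Type) [AddCommGroup T] [Module κ T] (R : GQ →* Module.End κ T)
    (c : Nat.Primes → κ) (d : GQ →* κˣ), B ≠ 0 →
    (∃ L : IntermediateField ℚ Qb, FiniteDimensional ℚ L ∧
      ∀ σ : GQ, (∀ a ∈ L, σ a = a) → d σ = 1) →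
    (∀ ℓ : ℕ, ℓ.Prime → ¬ ℓ ∣ B → ∀ A : ValuationSubring Qb, A.LiesOverPrime ℓ →
      ∀ σ ∈ A.inertiaSubgroupIn ℚ, d σ = 1) →
    ∀ x : T, x ≠ 0 →
    (∃ L : IntermediateField ℚ Qb, FiniteDimensional ℚ L ∧
      ∀ σ : GQ, (∀ a ∈ L, σ a = a) → R σ x = x) →
    (∀ ℓ : ℕ, ℓ.Prime → ¬ ℓ ∣ B → ∀ A : ValuationSubring Qb, A.LiesOverPrime ℓ →
      ∀ σ ∈ A.inertiaSubgroupIn ℚ, ∀ y : T, R σ y = y) →
    (∀ ℓ : ℕ, (hℓ : ℓ.Prime) → ¬ ℓ ∣ B → ∀ A : ValuationSubring Qb,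
      A.LiesOverPrime ℓ → ∀ σ : GQ, A.IsFrobeniusAt σ ℓ → ∀ y : T,
        R σ (R σ y) - c ⟨ℓ, hℓ⟩ • R σ y + ((d σ : κˣ) : κ) • y = 0) →
    ∃ ρ : ResidualGaloisRep k,
      (∀ ℓ : ℕ, (hℓ : ℓ.Prime) → ¬ ℓ ∣ B → ∀ A : ValuationSubring Qb,
        A.LiesOverPrime ℓ → ∀ σ : GQ, A.IsFrobeniusAt σ ℓ →
          LinearMap.charpoly (ρ.ρ σ) =
            X ^ 2 - C (ι (c ⟨ℓ, hℓ⟩)) * X + C (ι ((d σ : κˣ) : κ))) ∧
      ∀ ℓ : ℕ, ℓ.Prime → ¬ ℓ ∣ B → ρ.IsUnramifiedAt ℓ := by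
  intro B κ _ _ k _ ι T _ _ R c d hB hdL hdin x hx0 hxL hunr hfrob
  classical
  have hQA := quadAlg_char κ
  have hcheb := Fermat.Agent.Cheb.chebExact
  obtain ⟨L, hLfin, hL⟩ := hxL
  haveI := hLfin
  haveI : Module.Finite κ (orbitSpan R x) := Module.Finite.span_of_finite κ (finite_orbit hL)
  haveI : Nontrivial (orbitSpan R x) :=
    ⟨⟨⟨x, self_mem_orbitSpan R x⟩, 0, fun h => hx0 (congrArg Subtype.val h)⟩⟩
  set r := orbitRep R x with hr
  haveI : FiniteDimensional ℚ (IntermediateField.normalClosure ℚ L Qb) :=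
    normalClosure.is_finiteDimensional ℚ L Qb
  obtain ⟨Lc, hLcfin, hLc⟩ := hdL
  haveI := hLcfin
  set L' : IntermediateField ℚ Qb := IntermediateField.normalClosure ℚ L Qb ⊔ Lc with hL'
  haveI : FiniteDimensional ℚ L' := IntermediateField.finiteDimensional_sup _ _
  have hle1 : IntermediateField.normalClosure ℚ L Qb ≤ L' := le_sup_left
  have hle2 : Lc ≤ L' := le_sup_right
  have hr1 : ∀ σ : GQ, (∀ a ∈ L', σ a = a) → r σ = 1 := fun σ hσ =>
    orbitRep_eq_one_of_fixes hL fun a ha => hσ a (hle1 ha)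
  have hd1 : ∀ σ : GQ, (∀ a ∈ L', σ a = a) → d σ = 1 := fun σ hσ =>
    hLc σ fun a ha => hσ a (hle2 ha)
  have hfix : ∀ σ τ : GQ, (∀ a ∈ L', σ a = τ a) → ∀ a ∈ L', (τ⁻¹ * σ) a = a := by
    intro σ τ h a ha
    show τ⁻¹ (σ a) = a
    rw [h a ha]
    exact τ.symm_apply_apply a
  have hragree : ∀ σ τ : GQ, (∀ a ∈ L', σ a = τ a) → r σ = r τ := by
    intro σ τ h
    have h1 : r (τ⁻¹ * σ) = 1 := hr1 _ (hfix σ τ h)
    have h2 : r σ = r τ * r (τ⁻¹ * σ) := by rw [← map_mul, mul_inv_cancel_left]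
    rw [h2, h1, mul_one]
  have hdagree : ∀ σ τ : GQ, (∀ a ∈ L', σ a = τ a) → d σ = d τ := by
    intro σ τ h
    have h1 : d (τ⁻¹ * σ) = 1 := hd1 _ (hfix σ τ h)
    have h2 : d σ = d τ * d (τ⁻¹ * σ) := by rw [← map_mul, mul_inv_cancel_left]
    rw [h2, h1, mul_one]
  -- Chebotarev
  have hche : ∀ σ : GQ, ∃ q : ℕ, ∃ _ : q.Prime, ¬ q ∣ B ∧
      ∃ (P : ValuationSubring Qb) (φ : GQ), P.LiesOverPrime q ∧ P.IsFrobeniusAt φ q ∧
        ∀ a ∈ L', σ a = φ a := by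
    intro σ
    obtain ⟨q, hq, hqT, P, φ, hP, hφ, h⟩ := hcheb L' inferInstance σ B.primeFactors
    exact ⟨q, hq, fun hdvd => hqT (Nat.mem_primeFactors.mpr ⟨hq, hdvd, hB⟩), P, φ, hP, hφ, h⟩
  choose q hq hqB P φ hP hφ hσφ using hche
  set t : GQ → κ := fun σ => c ⟨q σ, hq σ⟩ with ht
  have hquadφ : ∀ ℓ (hℓ : ℓ.Prime), ¬ ℓ ∣ B → ∀ A : ValuationSubring Qb,
      A.LiesOverPrime ℓ → ∀ σ : GQ, A.IsFrobeniusAt σ ℓ → ∀ w : orbitSpan R x,
        r σ (r σ w) - c ⟨ℓ, hℓ⟩ • r σ w + ((d σ : κˣ) : κ) • w = 0 := by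
    intro ℓ hℓ hℓB A hA σ hσ w
    apply Subtype.ext
    have h := hfrob ℓ hℓ hℓB A hA σ hσ (w : T)
    simp only [hr]
    simpa using h
  have hquad : ∀ g w, r g (r g w) - t g • r g w + ((d g : κˣ) : κ) • w = 0 := by
    intro g w
    rw [hragree g (φ g) (hσφ g), hdagree g (φ g) (hσφ g)]
    exact hquadφ (q g) (hq g) (hqB g) (P g) (hP g) (φ g) (hφ g) w
  obtain ⟨ρ2, hρ2, htriv⟩ := hQA (orbitSpan R x) r d t hquad
  have htuniq : ∀ (g : GQ) (s : κ),
      (∀ w : orbitSpan R x, r g (r g w) - s • r g w + ((d g : κˣ) : κ) • w = 0) → s = t g := by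
    intro g s hs
    by_contra hne
    have hall : ∀ w : orbitSpan R x, w = 0 := by
      intro w
      have h1 := hs (r g⁻¹ w)
      have h2 := hquad g (r g⁻¹ w)
      have h3 : r g (r g⁻¹ w) = w := by
        rw [← Module.End.mul_apply, ← map_mul, mul_inv_cancel, map_one]
        rfl
      rw [h3] at h1 h2
      have h4 : (s - t g) • w = 0 := by
        rw [sub_smul]
        have h5 := h2.trans h1.symm
        have h6 : t g • w = s • w := by
          have := congrArg (fun z => r g w + ((d g : κˣ) : κ) • (r g⁻¹ w) - z) h5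
          simpa using this
        rw [h6, sub_self]
      exact (smul_eq_zero.mp h4).resolve_left (sub_ne_zero.mpr hne)
    obtain ⟨a, b, hab⟩ := exists_pair_ne (orbitSpan R x)
    exact hab ((hall a).trans (hall b).symm)
  have hmat1 : ∀ σ : GQ, ρ2 σ = 1 → matRep ι ρ2 σ = 1 := by
    intro σ h
    rw [matRep_apply, h, Matrix.map_one _ (map_zero ι) (map_one ι), Matrix.toLin'_one]
    rfl
  refine ⟨{ V := Fin 2 → k
            finrank_eq := by simp
            ρ := matRep ι ρ2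
            factorsThroughFiniteLevel := ⟨L', inferInstance, fun σ hσ => ?_⟩ }, ?_, ?_⟩
  · exact hmat1 σ (htriv σ (hr1 σ hσ) (hd1 σ hσ))
  · intro ℓ hℓ hℓB A hA σ hσ
    show LinearMap.charpoly (matRep ι ρ2 σ) = _
    rw [charpoly_matRep, (hρ2 σ).1, (hρ2 σ).2,
      ← htuniq σ (c ⟨ℓ, hℓ⟩) (hquadφ ℓ hℓ hℓB A hA σ hσ)]
  · intro ℓ hℓ hℓB A hA σ hσ
    have h1 : r σ = 1 := by
      ext w
      exact hunr ℓ hℓ hℓB A hA σ hσ (w : T)
    exact hmat1 σ (htriv σ h1 (hdin ℓ hℓ hℓB A hA σ hσ))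

end Fermat.Agent.DS.X1Res

end
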